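import Fermat.Agent.S17.H830.NSVal
import Fermat.Agent.S17.H680.Descent
import Fermat.Agent.Lib.RR.Duality

/-!
# S17 / G-DIV, piece NS (helper830), part 4: the abstract counting argument

General function field `F / K` with `FF1 K F`, semilinear automorphisms:

* `smul_divisor_eq_of_forall` : a divisor all of whose places are fixed is fixed;
* `ell_sub_prim_add_one_of_orbit` : if `D` is fixed by automorphisms `g n` which move `P` to
  pairwise different places, `D P = 0` and `ℓ(D) ≥ 1`, then `ℓ(D - P) = ℓ(D) - 1`;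
* `nsDiv W P i = W - P_0 - … - P_{i-1}` and `ell_sumPrim_eq_one` : if every step drops the
  dimension by one (starting from a canonical divisor `W`), then `ℓ(P_0 + … + P_{g-1}) = 1`.
-/

set_option autoImplicit false

noncomputable section

open AlgebraicCurve

namespace Fermat.Agent.S17.H830

open Fermat.Agent.Lib.RR

section Abstract

variable {K F : Type*} [Field K] [Field F] [Algebra K F]

/-- A divisor all of whose places are fixed is fixed. -/
theorem smul_divisor_eq_of_forall (g : SemilinearAut K F) {D : Divisor K F}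
    (h : ∀ v ∈ D.support, g • v = v) : g • D = D := by
  rw [SemilinearAut.divisor_smul_def]
  have h1 : Finsupp.mapDomain (g • ·) D = Finsupp.mapDomain id D :=
    Finsupp.mapDomain_congr (fun v hv => h v hv)
  rw [h1, Finsupp.mapDomain_id]

theorem prim_nonneg (P : Place K F) : (0 : Divisor K F) ≤ prim P := by
  intro v
  by_cases hv : v = P
  · subst hv
    rw [prim_apply_self]
    exact zero_le_one
  · rw [prim_apply_of_ne hv]
    exact le_rfl

/-- A space `L(D)` of positive dimension contains a nonzero function. -/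
theorem exists_ne_zero_of_ell_pos {D : Divisor K F} (h : 1 ≤ ell D) :
    ∃ f ∈ riemannRochSpace D, f ≠ 0 := by
  by_contra hcon
  have hbot : riemannRochSpace D = ⊥ := by
    rw [Submodule.eq_bot_iff]
    intro f hf
    by_contra hf0
    exact hcon ⟨f, hf, hf0⟩
  have h0 : ell D = 0 := by
    unfold ell
    rw [hbot]
    exact finrank_bot K F
  omega

variable [FF1 K F]

/-- **The step.**  If `D` is fixed by automorphisms `g n` moving `P` to pairwise different
places, `D P = 0` and `ℓ(D) ≥ 1`, then `ℓ(D - P) + 1 = ℓ(D)`. -/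
theorem ell_sub_prim_add_one_of_orbit (D : Divisor K F) (P : Place K F) (hDP : D P = 0)
    (hℓ : 1 ≤ ell D) (g : ℕ → SemilinearAut K F) (hgD : ∀ n, g n • D = D)
    (hinj : Function.Injective fun n => g n • P) :
    ell (D - prim P) + 1 = ell D := by
  classical
  have h1 : ell D ≤ ell (D - prim P) + 1 := by
    have := ell_add_prim_le (D - prim P) P
    rwa [sub_add_cancel] at this
  have hle : D - prim P ≤ D := sub_le_self D (prim_nonneg P)
  have h2 : ell (D - prim P) ≤ ell D := ell_mono hle
  by_contra hne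
  have heq : ell (D - prim P) = ell D := by omega
  have hLeq : riemannRochSpace (D - prim P) = riemannRochSpace D :=
    Submodule.eq_of_le_of_finrank_eq (L_mono hle) heq
  obtain ⟨f, hfD, hf0⟩ := exists_ne_zero_of_ell_pos hℓ
  have hgD' : ∀ n, (g n)⁻¹ • D = D := by
    intro n
    rw [inv_smul_eq_iff]
    exact (hgD n).symm
  have hord : ∀ n, (g n • P).ord f ≠ 0 := by
    intro n
    have hmem : (g n)⁻¹ • f ∈ riemannRochSpace (D - prim P) := by
      rw [hLeq]
      have := Fermat.Agent.S17.H680.smul_mem_L (g n)⁻¹ hfD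
      rwa [hgD' n] at this
    have hne0 : (g n)⁻¹ • f ≠ 0 := Fermat.Agent.S17.H680.smul_ne_zero (g n)⁻¹ hf0
    have h3 := (mem_L_iff.mp hmem P).resolve_left hne0
    have h4 : (D - prim P) P = -1 := by
      rw [Finsupp.sub_apply, hDP, prim_apply_self, zero_sub]
    rw [h4] at h3
    have h5 := SemilinearAut.ord_smul (g n) P ((g n)⁻¹ • f)
    rw [smul_inv_smul] at h5
    rw [h5]
    omega
  have hfin := finite_setOf_ord_ne_zero (K := K) hf0
  exact Set.infinite_range_of_injective hinj (hfin.subset (by
    rintro _ ⟨n, rfl⟩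
    exact hord n))

end Abstract

section NsDiv

variable {K F : Type*} [Field K] [Field F] [Algebra K F]

/-- The divisor `W - P_0 - … - P_{i-1}`. -/
def nsDiv {g : ℕ} (W : Divisor K F) (P : Fin g → Place K F) (i : ℕ) : Divisor K F :=
  W - ∑ j ∈ Finset.univ.filter (fun j : Fin g => j.val < i), prim (P j)

theorem nsDiv_zero {g : ℕ} (W : Divisor K F) (P : Fin g → Place K F) :
    nsDiv W P 0 = W := by
  simp [nsDiv]

theorem nsDiv_succ {g : ℕ} (W : Divisor K F) (P : Fin g → Place K F) (i : ℕ)
    (hi : i < g) : nsDiv W P (i + 1) = nsDiv W P i - prim (P ⟨i, hi⟩) := by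
  classical
  have hfilter : Finset.univ.filter (fun j : Fin g => j.val < i + 1)
      = insert (⟨i, hi⟩ : Fin g) (Finset.univ.filter (fun j : Fin g => j.val < i)) := by
    ext j
    simp only [Finset.mem_filter, Finset.mem_univ, true_and, Finset.mem_insert, Fin.ext_iff]
    omega
  have hnot : (⟨i, hi⟩ : Fin g) ∉ Finset.univ.filter (fun j : Fin g => j.val < i) := by
    simp
  rw [nsDiv, nsDiv, hfilter, Finset.sum_insert hnot]
  abel

theorem nsDiv_self {g : ℕ} (W : Divisor K F) (P : Fin g → Place K F) :
    nsDiv W P g = W - ∑ j, prim (P j) := by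
  have hfilter : Finset.univ.filter (fun j : Fin g => j.val < g) = Finset.univ := by
    ext j
    simp
  rw [nsDiv, hfilter]

/-- The support of `nsDiv W P i` consists of places of `supp W` and the `P j`, `j < i`. -/
theorem mem_support_nsDiv {g : ℕ} {W : Divisor K F} {P : Fin g → Place K F}
    {i : ℕ} {v : Place K F} (hv : v ∈ (nsDiv W P i).support) :
    v ∈ W.support ∨ ∃ j : Fin g, j.val < i ∧ v = P j := by
  classical
  by_contra hcon
  rw [not_or, not_exists] at hcon
  obtain ⟨h1, h2⟩ := hcon
  apply Finsupp.mem_support_iff.mp hv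
  have hW : W v = 0 := by
    by_contra h
    exact h1 (Finsupp.mem_support_iff.mpr h)
  rw [nsDiv, Finsupp.sub_apply, hW, Finsupp.finsetSum_apply, zero_sub, neg_eq_zero]
  apply Finset.sum_eq_zero
  intro j hj
  have hj' : j.val < i := (Finset.mem_filter.mp hj).2
  have hne : v ≠ P j := fun h => h2 j ⟨hj', h⟩
  exact prim_apply_of_ne hne

/-- If every step drops the dimension, then `ℓ(W - ΣP) = 0` (`ℓ(W) = g`). -/
theorem ell_nsDiv_add {g : ℕ} (W : Divisor K F) (hW : ell W = g) (P : Fin g → Place K F)
    (hstep : ∀ (i : ℕ) (hi : i < g), 1 ≤ ell (nsDiv W P i) →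
      ell (nsDiv W P i - prim (P ⟨i, hi⟩)) + 1 = ell (nsDiv W P i)) :
    ∀ i : ℕ, i ≤ g → ell (nsDiv W P i) + i = g := by
  intro i
  induction i with
  | zero =>
    intro _
    rw [nsDiv_zero, hW]
    rfl
  | succ i ih =>
    intro hi
    have hi' : i < g := hi
    have ih' := ih hi'.le
    have h1 : 1 ≤ ell (nsDiv W P i) := by omega
    have h2 := hstep i hi' h1
    rw [nsDiv_succ W P i hi']
    omega

variable [FF1 K F]

/-- **Abstract NS.**  `W` canonical, every step drops the dimension ⟹ `ℓ(ΣP) = 1`. -/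
theorem ell_sumPrim_eq_one {g : ℕ} (W : Divisor K F) (hW : ell W = g)
    (hRR : ∀ D : Divisor K F,
      (ell D : ℤ) = Divisor.degree D + 1 - (g : ℤ) + ell (W - D))
    (P : Fin g → Place K F)
    (hstep : ∀ (i : ℕ) (hi : i < g), 1 ≤ ell (nsDiv W P i) →
      ell (nsDiv W P i - prim (P ⟨i, hi⟩)) + 1 = ell (nsDiv W P i)) :
    ell (∑ j, prim (P j)) = 1 := by
  have h0 : ell (W - ∑ j, prim (P j)) = 0 := by
    have := ell_nsDiv_add W hW P hstep g le_rfl
    rw [nsDiv_self] at this
    omega
  have hdeg : Divisor.degree (∑ j, prim (P j)) = (g : ℤ) := by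
    simp [map_sum, degree_prim _ (deg_eq_one _)]
  have h1 := hRR (∑ j, prim (P j))
  rw [h0, hdeg] at h1
  have h2 : (ell (∑ j, prim (P j)) : ℤ) = 1 := by
    rw [h1]
    push_cast
    ring
  exact_mod_cast h2

end NsDiv

end Fermat.Agent.S17.H830
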