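import Mathlib

/-!
# S17 / G-DIV, piece NS (helper830), part 3: relative algebraic closures as subfields

Mathlib only.  For a subfield `K` of a field `L` and a set `T ⊆ L`:

* `aclo K T : Subfield L` : the elements of `L` algebraic over `K(T)` (= over the subalgebra
  `K[T]`);
* `le_aclo`, `subset_aclo`, `aclo_algClosed` (it is algebraically closed in `L`),
  `countable_aclo`;
* `not_mem_aclo_of_algebraicIndependent` : if `x` is algebraically independent over `K` and
  `i ∉ s`, then `x i ∉ aclo K (x '' s)`.
-/

set_option autoImplicit false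

noncomputable section

namespace Fermat.Agent.S17.H830

open Cardinal

universe u

variable {L : Type u} [Field L]

/-- The elements of `L` which are algebraic over `K(T)`. -/
def aclo (K : Subfield L) (T : Set L) : Subfield L where
  carrier := {x | IsAlgebraic (Algebra.adjoin K T) x}
  mul_mem' ha hb := IsAlgebraic.mul ha hb
  one_mem' := isAlgebraic_one
  add_mem' ha hb := IsAlgebraic.add ha hb
  zero_mem' := isAlgebraic_zero
  neg_mem' ha := IsAlgebraic.neg ha
  inv_mem' _ hx := IsAlgebraic.inv hx

theorem mem_aclo {K : Subfield L} {T : Set L} {x : L} :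
    x ∈ aclo K T ↔ IsAlgebraic (Algebra.adjoin K T) x := Iff.rfl

theorem adjoin_le_aclo (K : Subfield L) (T : Set L) (a : Algebra.adjoin K T) :
    (a : L) ∈ aclo K T :=
  isAlgebraic_algebraMap a

theorem le_aclo (K : Subfield L) (T : Set L) : K ≤ aclo K T := fun x hx =>
  adjoin_le_aclo K T ⟨x, Subalgebra.algebraMap_mem _ (⟨x, hx⟩ : K)⟩

theorem subset_aclo (K : Subfield L) (T : Set L) : T ⊆ aclo K T := fun x hx =>
  adjoin_le_aclo K T ⟨x, Algebra.subset_adjoin hx⟩

/-- `aclo K T` is algebraically closed in `L`. -/
theorem aclo_algClosed (K : Subfield L) (T : Set L) (x : L)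
    (hx : IsAlgebraic (aclo K T) x) : x ∈ aclo K T := by
  let A := Algebra.adjoin K T
  let B : Subalgebra A L := Subalgebra.algebraicClosure A L
  let f : aclo K T →+* B :=
    { toFun := fun y => ⟨y.1, y.2⟩
      map_one' := rfl
      map_mul' := fun _ _ => rfl
      map_zero' := rfl
      map_add' := fun _ _ => rfl }
  have hf : Function.Injective f := fun a b h => Subtype.ext (congrArg (fun z : B => (z : L)) h)
  have h1 : IsAlgebraic B ((RingHom.id L) x) :=
    hx.ringHom_of_comp_eq f (RingHom.id L) hf (by ext; rfl)
  exact IsAlgebraic.restrictScalars A h1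

theorem countable_aclo {K : Subfield L} {T : Set L} (hK : (K : Set L).Countable)
    (hT : T.Countable) : (aclo K T : Set L).Countable := by
  let A := Algebra.adjoin K T
  let B : Subalgebra A L := Subalgebra.algebraicClosure A L
  have hA : #A ≤ ℵ₀ := by
    refine (Algebra.cardinalMk_adjoin_le (R := K) T).trans ?_
    have h1 : #K ≤ ℵ₀ := Cardinal.le_aleph0_iff_set_countable.mpr hK
    have h2 : #T ≤ ℵ₀ := Cardinal.le_aleph0_iff_set_countable.mpr hT
    exact max_le (max_le h1 h2) le_rfl
  have hB : #B ≤ ℵ₀ :=
    (Algebra.IsAlgebraic.cardinalMk_le_max A B).trans (max_le hA le_rfl)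
  have hB' : ((B : Set L)).Countable := Cardinal.le_aleph0_iff_set_countable.mp hB
  exact hB'

/-- An element of an algebraically independent family is not algebraic over the others. -/
theorem not_mem_aclo_of_algebraicIndependent {K : Subfield L} {ι : Type*} {x : ι → L}
    (hx : AlgebraicIndependent K x) {s : Set ι} {i : ι} (hi : i ∉ s) :
    x i ∉ aclo K (x '' s) :=
  hx.transcendental_adjoin hi

end Fermat.Agent.S17.H830
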