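import Fermat.Agent.S17.H830.NSRat
import Fermat.Agent.S17.H830.NSClosure
import Fermat.Agent.S17.H830.NSAbs

/-!
# S17 / G-DIV, piece NS (helper830): generic points are non-special

`stmtNS : StmtPLEXT N L → StmtNS N L` (exact frozen shape of `GDiv/Defs.lean`).

Proof.  `W` a canonical divisor (Riemann–Roch), `K₀ :=` the algebraic closure in `L` of
`K(t(Q) : Q ∈ supp W)`; it is countable, algebraically closed in `L`, and `W` is rational over
`K₀` (ALGVAL).  For a tuple `P` generic over `K₀` put `D_i := W - P_0 - … - P_{i-1}` and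
`K_i :=` the algebraic closure of `K₀(t(P_j) : j < i)`.  `D_i` is rational over `K_i`, hence fixed
by `Aut(L/K_i)` (PLEXT), while `t(P_i)` is transcendental over `K_i`, so the orbit of `P_i` under
`Aut(L/K_i)` is infinite.  If `ℓ(D_i - P_i) = ℓ(D_i) ≥ 1`, a nonzero `f ∈ L(D_i)` vanishes on the
whole orbit: impossible.  Hence `ℓ(D_i) = g - i`, `ℓ(W - ΣP_i) = 0` and `ℓ(ΣP_i) = 1`.
-/

set_option autoImplicit false

noncomputable section

open AlgebraicCurve ModularCurve

namespace Fermat.Agent.S17.H830

open Fermat.Agent.Lib.RR Fermat.Agent.S17.GDiv Fermat.Agent.S17.H680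

section Fix

variable {N : ℕ} [NeZero N] {L : Type} [Field L] [Algebra ℚ L]

omit [NeZero N] in
/-- A place rational over `K₁` is fixed by the automorphisms fixing `K₁` (from PLEXT). -/
theorem galois_smul_eq_of_rational (hPLEXT : StmtPLEXT N L) {K₁ : Subfield L}
    {P : Place L (FL N L)} (hP : IsRationalOver K₁ P) (σ : L ≃ₐ[ℚ] L)
    (hσ : ∀ a ∈ K₁, σ a = a) :
    arithmeticGalois (modularFunctionFieldFull N) σ • P = P := by
  symm
  apply hPLEXT
  intro u c hc
  have h := hasValue_bcQ_smul σ hc
  rwa [hσ c (hP u c hc)] at h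

omit [NeZero N] in
theorem galois_smul_divisor_eq (hPLEXT : StmtPLEXT N L) {K₁ : Subfield L}
    {D : Divisor L (FL N L)} (hD : DivRationalOver K₁ D) (σ : L ≃ₐ[ℚ] L)
    (hσ : ∀ a ∈ K₁, σ a = a) :
    arithmeticGalois (modularFunctionFieldFull N) σ • D = D :=
  smul_divisor_eq_of_forall _ fun v hv => galois_smul_eq_of_rational hPLEXT (hD v hv) σ hσ

end Fix

section Step

variable {N : ℕ} [NeZero N] {L : Type} [Field L] [Algebra ℚ L] [IsAlgClosed L]
  [FF1 L (FL N L)]

/-- **The step.**  If `D` is rational over `K'` (algebraically closed in `L`), `ℓ(D) ≥ 1` and the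
`t`-value of `P` does not lie in `K'`, then `ℓ(D - P) = ℓ(D) - 1`. -/
theorem ell_sub_prim_add_one (hPLEXT : StmtPLEXT N L) (K' : Subfield L) (hK' : AlgClosedIn K')
    (D : Divisor L (FL N L)) (hD : DivRationalOver K' D) (P : Place L (FL N L))
    (hP : ∃ c : L, HasValue P (tL N L) c) (hτ : tval P ∉ K') (hℓ : 1 ≤ ell D) :
    ell (D - prim P) + 1 = ell D := by
  classical
  have : CharZero L := algebraRat.charZero L
  -- `P` is not in the support of `D`
  have hDP : D P = 0 := by
    by_contra h
    have hmem : P ∈ D.support := Finsupp.mem_support_iff.mpr h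
    exact hτ (hD P hmem (jQ N) (tval P) (hasValue_tval hP))
  -- the automorphisms
  choose σ hσ1 hσ2 using fun n : ℕ => exists_aut_add K' hK' hτ n
  refine ell_sub_prim_add_one_of_orbit D P hDP hℓ
    (fun n => arithmeticGalois (modularFunctionFieldFull N) (σ n))
    (fun n => galois_smul_divisor_eq hPLEXT hD (σ n) (hσ1 n)) ?_
  have htv : ∀ n : ℕ, tval (arithmeticGalois (modularFunctionFieldFull N) (σ n) • P)
      = tval P + n := by
    intro n
    rw [tval_smul (σ n) hP, hσ2 n]
  intro n m hnm
  have h3 : tval P + (n : L) = tval P + (m : L) := by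
    rw [← htv n, ← htv m]
    exact congrArg tval hnm
  exact_mod_cast add_left_cancel h3

end Step

section Main

variable {N : ℕ} [NeZero N] {L : Type} [Field L] [Algebra ℚ L] [IsAlgClosed L]
  [FF1 L (FL N L)]

/-- **NS** (generic points are non-special), from PLEXT. -/
theorem stmtNS (hPLEXT : StmtPLEXT N L) : StmtNS N L := by
  classical
  intro K hK
  obtain ⟨W, -, hellW, hRR⟩ := riemann_roch (K := L) (F := FL N L)
  rw [genusFF_eq_genusR] at hellW
  simp only [genusFF_eq_genusR] at hRR
  have hT : (tval '' (W.support : Set (Place L (FL N L)))).Countable :=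
    (W.support.finite_toSet.image _).countable
  refine ⟨aclo K (tval '' (W.support : Set (Place L (FL N L)))), le_aclo K _,
    aclo_algClosed K _, countable_aclo hK hT, ?_⟩
  intro P hP
  have hW : DivRationalOver (aclo K (tval '' (W.support : Set (Place L (FL N L))))) W :=
    fun Q hQ => isRationalOver_of_tval_mem _ (aclo_algClosed K _) Q
      (subset_aclo K _ ⟨Q, hQ, rfl⟩)
  refine ell_sumPrim_eq_one W hellW hRR P ?_
  intro i hi h1
  have hK'a : AlgClosedIn (aclo (aclo K (tval '' (W.support : Set (Place L (FL N L)))))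
      ((fun j => tval (P j)) '' {j : Fin (gL N L) | j.val < i})) := aclo_algClosed _ _
  have hDrat : DivRationalOver (aclo (aclo K (tval '' (W.support : Set (Place L (FL N L)))))
      ((fun j => tval (P j)) '' {j : Fin (gL N L) | j.val < i})) (nsDiv W P i) := by
    intro v hv
    rcases mem_support_nsDiv hv with h | ⟨j, hj, rfl⟩
    · exact fun u c hc => le_aclo _ _ (hW v h u c hc)
    · exact isRationalOver_of_tval_mem _ hK'a (P j) (subset_aclo _ _ ⟨j, hj, rfl⟩)
  have hτ : tval (P ⟨i, hi⟩) ∉ aclo (aclo K (tval '' (W.support : Set (Place L (FL N L)))))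
      ((fun j => tval (P j)) '' {j : Fin (gL N L) | j.val < i}) :=
    not_mem_aclo_of_algebraicIndependent hP.2 (s := {j : Fin (gL N L) | j.val < i})
      (i := ⟨i, hi⟩) (fun h => lt_irrefl i h)
  exact ell_sub_prim_add_one hPLEXT _ hK'a (nsDiv W P i) hDrat (P ⟨i, hi⟩) (hP.1 ⟨i, hi⟩) hτ h1

end Main

end Fermat.Agent.S17.H830
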