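import Mathlib

/-!
# S17 / tower H, piece ABS (helper830), part 1: local lemmas

`v` is a nonarchimedean absolute value on a field `Ω` of characteristic zero with
`v p = p⁻¹` for a prime number `p`.

* `abv_le_one_of_isIntegral` : integral elements have absolute value `≤ 1`;
* `abv_natCast_prime_ne` : `v ℓ = 1` for primes `ℓ ≠ p`;
* `abv_natCast_eq` : `v n = p ^ (-(n.factorization p))` for `n ≠ 0`;
* `abv_eq_one_of_prod_eq_one` : if finitely many factors `≤ 1` have product `1`, each is `1`.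
-/

set_option autoImplicit false

noncomputable section

namespace Fermat.Agent.S17.H830

section Local

variable {Ω : Type*} [Field Ω]

/-- Integral elements have absolute value at most one for a nonarchimedean absolute value. -/
theorem abv_le_one_of_isIntegral {v : AbsoluteValue Ω ℝ} (hv : IsNonarchimedean v)
    {x : Ω} (hx : IsIntegral ℤ x) : v x ≤ 1 := by
  by_contra hlt
  rw [not_le] at hlt
  obtain ⟨P, hmonic, hP⟩ := hx
  have hx0 : x ≠ 0 := by
    rintro rfl
    simp at hlt
    linarith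
  set n := P.natDegree with hn
  -- `x ^ n = - ∑ i < n, a i * x ^ i`
  have hsum : x ^ n = - ∑ i ∈ Finset.range n, ((P.coeff i : ℤ) : Ω) * x ^ i := by
    have h1 : Polynomial.eval₂ (algebraMap ℤ Ω) x P = 0 := hP
    rw [Polynomial.eval₂_eq_sum_range, Finset.sum_range_succ, ← hn] at h1
    have h2 : P.coeff n = 1 := hmonic.coeff_natDegree
    rw [h2] at h1
    simp only [algebraMap_int_eq, eq_intCast, Int.cast_one, one_mul] at h1
    have := eq_neg_of_add_eq_zero_right h1
    rw [this]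
  have hle : v (x ^ n) ≤ v x ^ (n - 1) := by
    rw [hsum, map_neg_eq_map]
    rcases Nat.eq_zero_or_pos n with h0 | hpos
    · simp [h0]
    have hne : (Finset.range n).Nonempty := Finset.nonempty_range_iff.mpr hpos.ne'
    obtain ⟨i, hi, hi'⟩ := hv.finset_image_add_of_nonempty
      (fun i => ((P.coeff i : ℤ) : Ω) * x ^ i) hne
    refine hi'.trans ?_
    rw [map_mul, map_pow]
    have h1 : v ((P.coeff i : ℤ) : Ω) ≤ 1 := hv.apply_intCast_le_one
    have h2 : v x ^ i ≤ v x ^ (n - 1) :=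
      pow_le_pow_right₀ hlt.le (Nat.le_sub_one_of_lt (Finset.mem_range.mp hi))
    calc v ((P.coeff i : ℤ) : Ω) * v x ^ i ≤ 1 * v x ^ (n - 1) :=
          mul_le_mul h1 h2 (by positivity) zero_le_one
      _ = v x ^ (n - 1) := one_mul _
  rw [map_pow] at hle
  rcases Nat.eq_zero_or_pos n with h0 | hpos
  · -- degree zero: `P = 1`, impossible
    have : P = 1 := by
      have := Polynomial.eq_C_of_natDegree_eq_zero (hn ▸ h0)
      rw [this]
      have h2 : P.coeff 0 = 1 := by
        have := hmonic.coeff_natDegree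
        rwa [← hn, h0] at this
      rw [h2]; simp
    rw [this] at hP
    simp at hP
  · have h3 : v x ^ (n - 1) < v x ^ n :=
      pow_lt_pow_right₀ hlt (Nat.sub_lt hpos Nat.one_pos)
    linarith

/-- `v ℓ = 1` for a prime `ℓ ≠ p` when `v` is nonarchimedean with `v p < 1`. -/
theorem abv_natCast_prime_ne {v : AbsoluteValue Ω ℝ} (hv : IsNonarchimedean v)
    {p : ℕ} (hp : p.Prime) (hvp : v (p : Ω) < 1) {ℓ : ℕ} (hℓ : ℓ.Prime) (hne : ℓ ≠ p) :
    v (ℓ : Ω) = 1 := by
  refine le_antisymm hv.apply_natCast_le_one ?_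
  by_contra hlt
  rw [not_le] at hlt
  have hcop : IsCoprime (ℓ : ℤ) (p : ℤ) := by
    rw [Int.isCoprime_iff_gcd_eq_one, Int.gcd_natCast_natCast]
    exact (Nat.coprime_primes hℓ hp).mpr hne
  obtain ⟨a, b, hab⟩ := hcop
  have h1 : (1 : Ω) = (a : Ω) * (ℓ : Ω) + (b : Ω) * (p : Ω) := by
    have := congrArg (fun z : ℤ => (z : Ω)) hab
    simp only [Int.cast_add, Int.cast_mul, Int.cast_natCast, Int.cast_one] at this
    exact this.symm
  have h2 : v (1 : Ω) ≤ max (v ((a : Ω) * (ℓ : Ω))) (v ((b : Ω) * (p : Ω))) := by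
    conv_lhs => rw [h1]
    exact hv _ _
  rw [map_one, map_mul, map_mul] at h2
  have ha : v (a : Ω) ≤ 1 := hv.apply_intCast_le_one
  have hb : v (b : Ω) ≤ 1 := hv.apply_intCast_le_one
  have h3 : v (a : Ω) * v (ℓ : Ω) < 1 := by
    calc v (a : Ω) * v (ℓ : Ω) ≤ 1 * v (ℓ : Ω) :=
          mul_le_mul_of_nonneg_right ha (by positivity)
      _ < 1 := by rw [one_mul]; exact hlt
  have h4 : v (b : Ω) * v (p : Ω) < 1 := by
    calc v (b : Ω) * v (p : Ω) ≤ 1 * v (p : Ω) :=
          mul_le_mul_of_nonneg_right hb (by positivity)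
      _ < 1 := by rw [one_mul]; exact hvp
  have := max_lt h3 h4
  linarith

/-- The value of a normalised `p`-adic absolute value on natural numbers. -/
theorem abv_natCast_eq {v : AbsoluteValue Ω ℝ} (hv : IsNonarchimedean v)
    {p : ℕ} (hp : p.Prime) (hvp : v (p : Ω) = (p : ℝ)⁻¹) {n : ℕ} (hn : n ≠ 0) :
    v (n : Ω) = ((p : ℝ)⁻¹) ^ (n.factorization p) := by
  have hp1 : v (p : Ω) < 1 := by
    rw [hvp]
    exact inv_lt_one_of_one_lt₀ (by exact_mod_cast hp.one_lt)
  induction n using Nat.recOnMul with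
  | zero => exact absurd rfl hn
  | one => simp
  | prime q hq =>
    by_cases hqp : q = p
    · subst hqp
      simp [hvp, hq.factorization_self]
    · rw [abv_natCast_prime_ne hv hp hp1 hq hqp]
      have : q.factorization p = 0 := by
        rw [hq.factorization]
        simp [hqp]
      rw [this, pow_zero]
  | mul a b iha ihb =>
    have ha : a ≠ 0 := fun h => hn (by simp [h])
    have hb : b ≠ 0 := fun h => hn (by simp [h])
    rw [Nat.cast_mul, map_mul, iha ha, ihb hb, Nat.factorization_mul ha hb, Finsupp.add_apply,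
      pow_add]

/-- If finitely many real numbers in `[0, 1]` have product `1`, each of them is `1`. -/
theorem eq_one_of_prod_eq_one {α : Type*} (s : Finset α) (f : α → ℝ)
    (h0 : ∀ a ∈ s, 0 ≤ f a) (h1 : ∀ a ∈ s, f a ≤ 1) (hprod : ∏ a ∈ s, f a = 1) :
    ∀ a ∈ s, f a = 1 := by
  classical
  intro a ha
  refine le_antisymm (h1 a ha) ?_
  by_contra hlt
  rw [not_le] at hlt
  have h2 : ∏ b ∈ s, f b = f a * ∏ b ∈ s.erase a, f b := (Finset.mul_prod_erase s f ha).symm
  have h3 : ∏ b ∈ s.erase a, f b ≤ 1 :=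
    Finset.prod_le_one (fun b hb => h0 b (Finset.mem_of_mem_erase hb))
      (fun b hb => h1 b (Finset.mem_of_mem_erase hb))
  have h4 : 0 ≤ ∏ b ∈ s.erase a, f b :=
    Finset.prod_nonneg (fun b hb => h0 b (Finset.mem_of_mem_erase hb))
  have h5 : f a * ∏ b ∈ s.erase a, f b ≤ f a * 1 :=
    mul_le_mul_of_nonneg_left h3 (h0 a ha)
  rw [hprod] at h2
  linarith

/-- `∏ p, p ^ (-(v_p n)) = n⁻¹` as a `finprod` over all primes. -/
theorem finprod_primes_inv_pow_factorization {n : ℕ} (hn : n ≠ 0) :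
    ∏ᶠ p : Nat.Primes, (((p : ℕ) : ℝ)⁻¹) ^ (n.factorization p) = (n : ℝ)⁻¹ := by
  classical
  let e : {q // q ∈ n.primeFactors} → Nat.Primes :=
    fun q => ⟨q.1, Nat.prime_of_mem_primeFactors q.2⟩
  have he : Function.Injective e := by
    intro a b hab
    have := congrArg (fun z : Nat.Primes => (z : ℕ)) hab
    exact Subtype.ext this
  set s : Finset Nat.Primes := n.primeFactors.attach.map ⟨e, he⟩ with hs
  have hsupp : Function.mulSupport (fun p : Nat.Primes => (((p : ℕ) : ℝ)⁻¹) ^ (n.factorization p))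
      ⊆ (s : Set Nat.Primes) := by
    intro p hp
    simp only [Function.mem_mulSupport, ne_eq] at hp
    have hdvd : (p : ℕ) ∣ n := by
      by_contra hdvd
      apply hp
      rw [Nat.factorization_eq_zero_of_not_dvd hdvd, pow_zero]
    have hmem : (p : ℕ) ∈ n.primeFactors := Nat.mem_primeFactors.mpr ⟨p.2, hdvd, hn⟩
    rw [hs, Finset.coe_map, Set.mem_image]
    exact ⟨⟨p, hmem⟩, by simp, rfl⟩
  rw [finprod_eq_prod_of_mulSupport_subset _ hsupp, hs, Finset.prod_map]
  have hcongr : ∀ x ∈ n.primeFactors.attach,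
      ((((⟨e, he⟩ : _ ↪ Nat.Primes) x : Nat.Primes) : ℕ) : ℝ)⁻¹ ^
        (n.factorization (((⟨e, he⟩ : _ ↪ Nat.Primes) x : Nat.Primes) : ℕ)) =
      (fun q : ℕ => ((q : ℝ)⁻¹) ^ (n.factorization q)) x.1 := fun _ _ => rfl
  rw [Finset.prod_congr rfl hcongr,
    Finset.prod_attach n.primeFactors (fun q => (((q : ℕ) : ℝ)⁻¹) ^ (n.factorization q))]
  have h1 : (n : ℝ) = ∏ p ∈ n.primeFactors, ((p : ℝ)) ^ (n.factorization p) := by
    conv_lhs => rw [← Nat.prod_factorization_pow_eq_self hn]
    rw [Finsupp.prod, Nat.support_factorization]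
    push_cast
    rfl
  rw [h1, ← Finset.prod_inv_distrib]
  refine Finset.prod_congr rfl fun p _ => ?_
  rw [inv_pow]

end Local

end Fermat.Agent.S17.H830
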