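import Mathlib
import Fermat.Agent.S17.H830.AbsLocal

/-!
# S17 / tower H, piece ABS (helper830), part 2: the finite part of the height via embeddings

`K` a number field, `Ω` an algebraically closed field of characteristic zero, and for every prime
`p` a nonarchimedean absolute value `v p` on `Ω` with `v p p = p⁻¹`.

Main result `prod_embeddings_finprod_iSup_eq` : for an integral tuple `x : ι → 𝓞 K`, `x ≠ 0`,

  `∏ τ : K →+* Ω, ∏ᶠ p, ⨆ i, v p (τ (x i)) = (absNorm (span (range x)))⁻¹`.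

Together with Mathlib's `NumberField.absNorm_mul_finprod_finitePlace_eq_one` this identifies the
finite part of Mathlib's height on `K` with a sum of local terms on `Ω` over all embeddings.
-/

set_option autoImplicit false

noncomputable section

namespace Fermat.Agent.S17.H830

open NumberField

section NF

variable {K : Type*} [Field K]
variable {Ω : Type*} [Field Ω]

/-- Integers of `K` have absolute value `≤ 1` under every embedding. -/
theorem abv_embedding_le_one {v : AbsoluteValue Ω ℝ} (hv : IsNonarchimedean v)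
    (τ : K →+* Ω) (a : 𝓞 K) : v (τ (a : K)) ≤ 1 :=
  abv_le_one_of_isIntegral hv (map_isIntegral_int τ (RingOfIntegers.isIntegral_coe a))

/-- The ideal of integers of absolute value `≤ r` under an embedding. -/
def ballIdeal {v : AbsoluteValue Ω ℝ} (hv : IsNonarchimedean v) (τ : K →+* Ω) (r : ℝ)
    (hr : 0 ≤ r) : Ideal (𝓞 K) where
  carrier := {a | v (τ (a : K)) ≤ r}
  add_mem' := by
    intro a b ha hb
    simp only [Set.mem_ofPred_eq] at ha hb ⊢
    push_cast
    rw [map_add]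
    exact (hv _ _).trans (max_le ha hb)
  zero_mem' := by
    simp only [Set.mem_ofPred_eq, map_zero]
    exact hr
  smul_mem' := by
    intro c a ha
    simp only [Set.mem_ofPred_eq] at ha ⊢
    rw [smul_eq_mul]
    push_cast
    rw [map_mul, map_mul]
    calc v (τ (c : K)) * v (τ (a : K)) ≤ 1 * r :=
          mul_le_mul (abv_embedding_le_one hv τ c) ha (by positivity) zero_le_one
      _ = r := one_mul r

theorem mem_ballIdeal {v : AbsoluteValue Ω ℝ} (hv : IsNonarchimedean v) (τ : K →+* Ω) {r : ℝ}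
    (hr : 0 ≤ r) (a : 𝓞 K) : a ∈ ballIdeal hv τ r hr ↔ v (τ (a : K)) ≤ r := Iff.rfl

theorem ballIdeal_mul_le {v : AbsoluteValue Ω ℝ} (hv : IsNonarchimedean v) (τ : K →+* Ω)
    {r s : ℝ} (hr : 0 ≤ r) (hs : 0 ≤ s) :
    ballIdeal hv τ r hr * ballIdeal hv τ s hs ≤ ballIdeal hv τ (r * s) (mul_nonneg hr hs) := by
  rw [Ideal.mul_le]
  intro a ha b hb
  rw [mem_ballIdeal] at ha hb ⊢
  push_cast
  rw [map_mul, map_mul]
  exact mul_le_mul ha hb (by positivity) hr

theorem pow_le_ballIdeal {v : AbsoluteValue Ω ℝ} (hv : IsNonarchimedean v) (τ : K →+* Ω)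
    {r : ℝ} (hr : 0 ≤ r) (I : Ideal (𝓞 K)) (hI : I ≤ ballIdeal hv τ r hr) (h : ℕ) :
    I ^ h ≤ ballIdeal hv τ (r ^ h) (pow_nonneg hr h) := by
  induction h with
  | zero =>
    intro a _
    rw [mem_ballIdeal, pow_zero]
    exact abv_embedding_le_one hv τ a
  | succ n ih =>
    rw [pow_succ]
    refine (Ideal.mul_mono ih hI).trans ?_
    refine (ballIdeal_mul_le hv τ (pow_nonneg hr n) hr).trans ?_
    intro a ha
    rw [mem_ballIdeal] at ha ⊢
    rwa [pow_succ]

variable {ι : Type*} [Finite ι]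

/-- Key local identity: if `(span (range x)) ^ h = (c)`, then
`(⨆ i, v (τ (x i))) ^ h = v (τ c)`. -/
theorem iSup_abv_pow_eq {v : AbsoluteValue Ω ℝ} (hv : IsNonarchimedean v) (τ : K →+* Ω)
    [Nonempty ι] (x : ι → 𝓞 K) {h : ℕ} {c : 𝓞 K}
    (hc : Ideal.span (Set.range x) ^ h = Ideal.span {c}) :
    (⨆ i, v (τ (x i : K))) ^ h = v (τ (c : K)) := by
  have hbdd : BddAbove (Set.range fun i => v (τ (x i : K))) := Set.finite_range _ |>.bddAbove
  have hN0 : 0 ≤ ⨆ i, v (τ (x i : K)) := Real.iSup_nonneg fun i => by positivity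
  refine le_antisymm ?_ ?_
  · -- `N ^ h ≤ v (τ c)`
    obtain ⟨i₀, hi₀⟩ := exists_eq_ciSup_of_finite (f := fun i => v (τ (x i : K)))
    rw [← hi₀]
    have hmem : x i₀ ^ h ∈ Ideal.span (Set.range x) ^ h :=
      Ideal.pow_mem_pow (Ideal.subset_span (Set.mem_range_self i₀)) h
    rw [hc, Ideal.mem_span_singleton'] at hmem
    obtain ⟨a, ha⟩ := hmem
    have h1 : (v (τ (x i₀ : K))) ^ h = v (τ (a : K)) * v (τ (c : K)) := by
      rw [← map_pow, ← map_pow, ← map_mul, ← map_mul]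
      congr 2
      have := congrArg (fun z : 𝓞 K => (z : K)) ha
      push_cast at this
      exact this.symm
    show v (τ (x i₀ : K)) ^ h ≤ v (τ (c : K))
    rw [h1]
    calc v (τ (a : K)) * v (τ (c : K)) ≤ 1 * v (τ (c : K)) :=
          mul_le_mul_of_nonneg_right (abv_embedding_le_one hv τ a) (by positivity)
      _ = v (τ (c : K)) := one_mul _
  · -- `v (τ c) ≤ N ^ h`
    have hI : Ideal.span (Set.range x) ≤ ballIdeal hv τ (⨆ i, v (τ (x i : K))) hN0 := by
      rw [Ideal.span_le]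
      rintro _ ⟨i, rfl⟩
      exact le_ciSup hbdd i
    have := pow_le_ballIdeal hv τ hN0 _ hI h
    have hcmem : c ∈ Ideal.span (Set.range x) ^ h := by
      rw [hc]; exact Ideal.mem_span_singleton_self c
    exact this hcmem

end NF

section Global

variable {K : Type*} [Field K] [NumberField K]
variable {Ω : Type*} [Field Ω] [CharZero Ω] [IsAlgClosed Ω]

/-- The product of all conjugates of `c` in `Ω` is the norm of `c`. -/
theorem prod_embeddings_eq_norm (c : K) :
    ∏ τ : K →+* Ω, τ c = algebraMap ℚ Ω (Algebra.norm ℚ c) := by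
  rw [Algebra.norm_eq_prod_embeddings ℚ Ω c]
  exact Fintype.prod_equiv (RingHom.equivRatAlgHom K Ω) _ _ (fun τ => rfl)

omit [CharZero Ω] [IsAlgClosed Ω] in
theorem abv_intCast_eq_natAbs (v : AbsoluteValue Ω ℝ) (z : ℤ) :
    v (z : Ω) = v ((z.natAbs : ℕ) : Ω) := by
  rcases Int.natAbs_eq z with h | h
  · conv_lhs => rw [h]
    simp
  · conv_lhs => rw [h]
    simp

/-- The product over all embeddings of the `p`-adic absolute values of an integer `c ≠ 0`
is the `p`-part of the inverse of the absolute norm of `(c)`. -/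
theorem prod_embeddings_abv_eq {v : AbsoluteValue Ω ℝ} (hv : IsNonarchimedean v)
    {p : ℕ} (hp : p.Prime) (hvp : v (p : Ω) = (p : ℝ)⁻¹) {c : 𝓞 K} (hc : c ≠ 0) :
    ∏ τ : K →+* Ω, v (τ (c : K)) =
      ((p : ℝ)⁻¹) ^ ((Ideal.absNorm (Ideal.span {c})).factorization p) := by
  rw [← map_prod, prod_embeddings_eq_norm, ← Algebra.coe_norm_int c]
  have h1 : algebraMap ℚ Ω ((Algebra.norm ℤ c : ℤ) : ℚ) = ((Algebra.norm ℤ c : ℤ) : Ω) := by
    simp
  rw [h1, abv_intCast_eq_natAbs, ← Ideal.absNorm_span_singleton]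
  refine abv_natCast_eq hv hp hvp ?_
  rw [Ne, Ideal.absNorm_eq_zero_iff, Ideal.span_singleton_eq_bot]
  exact hc

/-- For `p` not dividing the norm of `c`, all conjugates of `c` are `p`-adic units. -/
theorem abv_embedding_eq_one_of_not_dvd {v : AbsoluteValue Ω ℝ} (hv : IsNonarchimedean v)
    {p : ℕ} (hp : p.Prime) (hvp : v (p : Ω) = (p : ℝ)⁻¹) {c : 𝓞 K} (hc : c ≠ 0)
    (hdvd : ¬ p ∣ Ideal.absNorm (Ideal.span {c})) (τ : K →+* Ω) : v (τ (c : K)) = 1 := by
  have h := prod_embeddings_abv_eq (K := K) hv hp hvp hc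
  rw [Nat.factorization_eq_zero_of_not_dvd hdvd, pow_zero] at h
  exact eq_one_of_prod_eq_one Finset.univ (fun τ : K →+* Ω => v (τ (c : K)))
    (fun _ _ => by positivity) (fun τ _ => abv_embedding_le_one hv τ c) h τ (Finset.mem_univ τ)

variable (v : Nat.Primes → AbsoluteValue Ω ℝ)

/-- For an integer `c ≠ 0` of `K` and an embedding `τ`, `v p (τ c) = 1` for almost all `p`. -/
theorem hasFiniteMulSupport_abv_embedding (hv : ∀ p, IsNonarchimedean (v p))
    (hvp : ∀ p : Nat.Primes, v p ((p : ℕ) : Ω) = ((p : ℕ) : ℝ)⁻¹) {c : 𝓞 K} (hc : c ≠ 0)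
    (τ : K →+* Ω) : (Function.mulSupport fun p : Nat.Primes => v p (τ (c : K))).Finite := by
  have hn : Ideal.absNorm (Ideal.span {c}) ≠ 0 := by
    rw [Ne, Ideal.absNorm_eq_zero_iff, Ideal.span_singleton_eq_bot]
    exact hc
  have hfin : {p : Nat.Primes | (p : ℕ) ∣ Ideal.absNorm (Ideal.span {c})}.Finite := by
    have h1 : ((Ideal.absNorm (Ideal.span {c})).primeFactors : Set ℕ).Finite :=
      Finset.finite_toSet _
    refine Set.Finite.of_finite_image (f := fun p : Nat.Primes => (p : ℕ)) (h1.subset ?_) ?_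
    · rintro _ ⟨p, hp, rfl⟩
      exact Nat.mem_primeFactors.mpr ⟨p.2, hp, hn⟩
    · intro a _ b _ hab
      exact Subtype.ext hab
  refine hfin.subset ?_
  intro p hp
  simp only [Function.mem_mulSupport, ne_eq] at hp
  by_contra hdvd
  exact hp (abv_embedding_eq_one_of_not_dvd (hv p) p.2 (hvp p) hc hdvd τ)

/-- Product formula for integers of `K`, finite part, in embedding form. -/
theorem prod_embeddings_finprod_abv_eq (hv : ∀ p, IsNonarchimedean (v p))
    (hvp : ∀ p : Nat.Primes, v p ((p : ℕ) : Ω) = ((p : ℕ) : ℝ)⁻¹) {c : 𝓞 K} (hc : c ≠ 0) :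
    ∏ τ : K →+* Ω, ∏ᶠ p : Nat.Primes, v p (τ (c : K)) =
      ((Ideal.absNorm (Ideal.span {c}) : ℕ) : ℝ)⁻¹ := by
  have hn : Ideal.absNorm (Ideal.span {c}) ≠ 0 := by
    rw [Ne, Ideal.absNorm_eq_zero_iff, Ideal.span_singleton_eq_bot]
    exact hc
  rw [prod_finprod_comm Finset.univ (fun (τ : K →+* Ω) (p : Nat.Primes) => v p (τ (c : K)))
    (fun τ _ => hasFiniteMulSupport_abv_embedding v hv hvp hc τ)]
  rw [← finprod_primes_inv_pow_factorization hn]
  refine finprod_congr fun p => ?_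
  exact prod_embeddings_abv_eq (hv p) p.2 (hvp p) hc

omit [CharZero Ω] [IsAlgClosed Ω] in
/-- Some positive power of a nonzero ideal of `𝓞 K` is principal (finiteness of the class
group). -/
theorem exists_pow_eq_span_singleton (I : Ideal (𝓞 K)) (hI : I ≠ ⊥) :
    ∃ h : ℕ, h ≠ 0 ∧ ∃ c : 𝓞 K, c ≠ 0 ∧ I ^ h = Ideal.span {c} := by
  classical
  have hI' : I ∈ nonZeroDivisors (Ideal (𝓞 K)) := mem_nonZeroDivisors_iff_ne_zero.mpr hI
  refine ⟨Fintype.card (ClassGroup (𝓞 K)), Fintype.card_ne_zero, ?_⟩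
  have h1 : (ClassGroup.mk0 ⟨I, hI'⟩) ^ Fintype.card (ClassGroup (𝓞 K)) = 1 := pow_card_eq_one
  rw [← map_pow] at h1
  have hpow : I ^ Fintype.card (ClassGroup (𝓞 K)) ∈ nonZeroDivisors (Ideal (𝓞 K)) :=
    pow_mem hI' _
  have h2 : (⟨I, hI'⟩ : nonZeroDivisors (Ideal (𝓞 K))) ^ Fintype.card (ClassGroup (𝓞 K)) =
      ⟨I ^ Fintype.card (ClassGroup (𝓞 K)), hpow⟩ := Subtype.ext (by simp)
  rw [h2, ClassGroup.mk0_eq_one_iff] at h1
  obtain ⟨c, hc⟩ := h1
  refine ⟨c, ?_, ?_⟩
  · rintro rfl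
    have hne : I ^ Fintype.card (ClassGroup (𝓞 K)) ≠ ⊥ := pow_ne_zero _ hI
    apply hne
    rw [hc]
    simp
  · rw [hc]

variable {ι : Type*} [Finite ι]

/-- For an integral tuple `x ≠ 0` and an embedding `τ`, `⨆ i, v p (τ (x i)) = 1` for almost
all primes `p`. -/
theorem hasFiniteMulSupport_iSup_abv (hv : ∀ p, IsNonarchimedean (v p))
    (hvp : ∀ p : Nat.Primes, v p ((p : ℕ) : Ω) = ((p : ℕ) : ℝ)⁻¹) (x : ι → 𝓞 K) (hx : x ≠ 0)
    (τ : K →+* Ω) :
    Function.HasFiniteMulSupport (fun p : Nat.Primes => ⨆ i, v p (τ (x i : K))) := by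
  obtain ⟨i₀, hi₀⟩ := Function.ne_iff.mp hx
  have : Nonempty ι := ⟨i₀⟩
  have hi₀' : x i₀ ≠ 0 := hi₀
  refine (hasFiniteMulSupport_abv_embedding v hv hvp hi₀' τ).subset ?_
  intro p hp
  simp only [Function.mem_mulSupport, ne_eq] at hp ⊢
  intro h1
  apply hp
  have hbdd : BddAbove (Set.range fun i => v p (τ (x i : K))) := Set.finite_range _ |>.bddAbove
  refine le_antisymm ?_ ?_
  · exact ciSup_le fun i => abv_embedding_le_one (hv p) τ (x i)
  · rw [← h1]
    exact le_ciSup hbdd i₀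

/-- **Finite part of the height in embedding form.**  For an integral tuple `x ≠ 0`, the
product over all embeddings `τ : K →+* Ω` and all primes `p` of `⨆ i, v p (τ (x i))` is the
inverse of the absolute norm of the ideal generated by the `x i`. -/
theorem prod_embeddings_finprod_iSup_eq (hv : ∀ p, IsNonarchimedean (v p))
    (hvp : ∀ p : Nat.Primes, v p ((p : ℕ) : Ω) = ((p : ℕ) : ℝ)⁻¹) (x : ι → 𝓞 K) (hx : x ≠ 0) :
    ∏ τ : K →+* Ω, ∏ᶠ p : Nat.Primes, ⨆ i, v p (τ (x i : K)) =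
      ((Ideal.absNorm (Ideal.span (Set.range x)) : ℕ) : ℝ)⁻¹ := by
  obtain ⟨i₀, hi₀⟩ := Function.ne_iff.mp hx
  have : Nonempty ι := ⟨i₀⟩
  have hI : Ideal.span (Set.range x) ≠ ⊥ := by
    intro h
    apply hi₀
    have : x i₀ ∈ Ideal.span (Set.range x) := Ideal.subset_span (Set.mem_range_self i₀)
    rw [h] at this
    simpa using this
  obtain ⟨h, hh, c, hc0, hc⟩ := exists_pow_eq_span_singleton _ hI
  have key : ∀ (τ : K →+* Ω) (p : Nat.Primes),
      (⨆ i, v p (τ (x i : K))) ^ h = v p (τ (c : K)) :=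
    fun τ p => iSup_abv_pow_eq (hv p) τ x hc
  have hnn : ∀ (τ : K →+* Ω) (p : Nat.Primes), 0 ≤ ⨆ i, v p (τ (x i : K)) :=
    fun τ p => Real.iSup_nonneg fun i => by positivity
  have hA : 0 ≤ ∏ τ : K →+* Ω, ∏ᶠ p : Nat.Primes, ⨆ i, v p (τ (x i : K)) :=
    Finset.prod_nonneg fun τ _ => finprod_nonneg fun p => hnn τ p
  have hB : (0 : ℝ) ≤ ((Ideal.absNorm (Ideal.span (Set.range x)) : ℕ) : ℝ)⁻¹ := by positivity
  refine (pow_left_inj₀ hA hB hh).mp ?_
  rw [← Finset.prod_pow]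
  calc ∏ τ : K →+* Ω, (∏ᶠ p : Nat.Primes, ⨆ i, v p (τ (x i : K))) ^ h
      = ∏ τ : K →+* Ω, ∏ᶠ p : Nat.Primes, v p (τ (c : K)) := by
        refine Finset.prod_congr rfl fun τ _ => ?_
        rw [finprod_pow (hasFiniteMulSupport_iSup_abv v hv hvp x hx τ)]
        exact finprod_congr fun p => key τ p
    _ = ((Ideal.absNorm (Ideal.span {c}) : ℕ) : ℝ)⁻¹ :=
        prod_embeddings_finprod_abv_eq v hv hvp hc0
    _ = (((Ideal.absNorm (Ideal.span (Set.range x)) : ℕ) : ℝ)⁻¹) ^ h := by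
        rw [← hc, map_pow, Nat.cast_pow, inv_pow]

end Global

end Fermat.Agent.S17.H830
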