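import Mathlib
import Fermat.Agent.S17.H830.AbsFin

/-!
# S17 / tower H, piece ABS (helper830), part 3: Mathlib heights as sums of local terms over
embeddings

`Ω` is an algebraically closed field of characteristic zero (in the application `ℚ̄`) with a
system `S : AbsSystem Ω` of absolute values: one embedding `S.inf : Ω →+* ℂ` and, for every prime
`p`, a nonarchimedean absolute value `S.fin p` with `S.fin p p = p⁻¹`.

For a tuple `x : ι → Ω` put
  `S.locInf x = ⨆ i, ‖S.inf (x i)‖`,   `S.locFin p x = ⨆ i, S.fin p (x i)`,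
  `S.locMul x = S.locInf x * ∏ᶠ p, S.locFin p x`.

Main results, for a number field `K` and `y : ι → K`, `y ≠ 0`:

* `mulHeight_eq_prod_locMul` : `Height.mulHeight y = ∏ τ : K →+* Ω, S.locMul (τ ∘ y)`;
* `logHeight_eq_sum_log_locMul` : the logarithmic version;
* `hasFiniteMulSupport_locFin` : `S.locFin p (τ ∘ y) = 1` for almost all `p`;
* `prod_locMul_singleton` : product formula in embedding form.
-/

set_option autoImplicit false

noncomputable section

namespace Fermat.Agent.S17.H830

open NumberField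

/-- A system of absolute values on `Ω` extending the standard absolute values of `ℚ`. -/
structure AbsSystem (Ω : Type*) [Field Ω] where
  /-- the archimedean embedding -/
  inf : Ω →+* ℂ
  /-- the `p`-adic absolute values -/
  fin : Nat.Primes → AbsoluteValue Ω ℝ
  nonarch : ∀ p, IsNonarchimedean (fin p)
  fin_p : ∀ p : Nat.Primes, fin p ((p : ℕ) : Ω) = ((p : ℕ) : ℝ)⁻¹

namespace AbsSystem

variable {Ω : Type*} [Field Ω] (S : AbsSystem Ω) {ι : Type*}

/-- archimedean local factor of a tuple -/
def locInf (x : ι → Ω) : ℝ := ⨆ i, ‖S.inf (x i)‖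

/-- `p`-adic local factor of a tuple -/
def locFin (p : Nat.Primes) (x : ι → Ω) : ℝ := ⨆ i, S.fin p (x i)

/-- the product of all local factors of a tuple -/
def locMul (x : ι → Ω) : ℝ := S.locInf x * ∏ᶠ p : Nat.Primes, S.locFin p x

theorem locInf_nonneg (x : ι → Ω) : 0 ≤ S.locInf x :=
  Real.iSup_nonneg fun _ => norm_nonneg _

theorem locFin_nonneg (p : Nat.Primes) (x : ι → Ω) : 0 ≤ S.locFin p x :=
  Real.iSup_nonneg fun _ => by positivity

theorem locInf_smul [Finite ι] (c : Ω) (x : ι → Ω) :
    S.locInf (fun i => c * x i) = ‖S.inf c‖ * S.locInf x := by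
  unfold locInf
  simp only [map_mul, norm_mul]
  rw [Real.mul_iSup_of_nonneg (norm_nonneg _)]

theorem locFin_smul [Finite ι] (p : Nat.Primes) (c : Ω) (x : ι → Ω) :
    S.locFin p (fun i => c * x i) = S.fin p c * S.locFin p x := by
  unfold locFin
  simp only [map_mul]
  rw [Real.mul_iSup_of_nonneg (by positivity)]

end AbsSystem

section Arch

variable {K : Type*} [Field K] [NumberField K] {ι : Type*}

/-- The archimedean part of Mathlib's height as a product over complex embeddings. -/
theorem prod_infinitePlace_iSup_eq (x : ι → K) :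
    ∏ w : InfinitePlace K, (⨆ i, w (x i)) ^ w.mult = ∏ φ : K →+* ℂ, ⨆ i, ‖φ (x i)‖ := by
  classical
  rw [← Finset.prod_fiberwise Finset.univ (fun φ : K →+* ℂ => InfinitePlace.mk φ)
    (fun φ => ⨆ i, ‖φ (x i)‖)]
  refine Finset.prod_congr rfl fun w _ => ?_
  rw [← InfinitePlace.card_filter_mk_eq w, ← Finset.prod_const]
  refine Finset.prod_congr rfl fun φ hφ => ?_
  have hw : InfinitePlace.mk φ = w := (Finset.mem_filter.mp hφ).2
  simp only [← hw, InfinitePlace.apply]

variable {Ω : Type*} [Field Ω] [CharZero Ω] [IsAlgClosed Ω]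

/-- Composition with an embedding `Ω →+* ℂ` is a bijection between the embeddings of `K` into
`Ω` and into `ℂ`. -/
theorem prod_embeddings_comp (ψ : Ω →+* ℂ) {M : Type*} [CommMonoid M] (g : (K →+* ℂ) → M) :
    ∏ τ : K →+* Ω, g (ψ.comp τ) = ∏ φ : K →+* ℂ, g φ := by
  refine Fintype.prod_bijective (fun τ : K →+* Ω => ψ.comp τ) ?_ _ _ (fun _ => rfl)
  rw [Fintype.bijective_iff_injective_and_card]
  refine ⟨?_, ?_⟩
  · intro τ₁ τ₂ h
    ext a
    exact ψ.injective (RingHom.congr_fun h a)
  · rw [Embeddings.card K Ω, Embeddings.card K ℂ]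

end Arch

section Main

variable {K : Type*} [Field K] [NumberField K]
variable {Ω : Type*} [Field Ω] [CharZero Ω] [IsAlgClosed Ω] (S : AbsSystem Ω)
variable {ι : Type*} [Finite ι]

/-- The height formula for integral tuples. -/
theorem mulHeight_eq_prod_locMul_int (x : ι → 𝓞 K) (hx : x ≠ 0) :
    Height.mulHeight (fun i => (x i : K)) = ∏ τ : K →+* Ω, S.locMul (fun i => τ (x i : K)) := by
  have hx' : (fun i => (x i : K)) ≠ 0 := by
    intro h
    apply hx
    funext i
    have := congrFun h i
    simpa using this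
  rw [NumberField.mulHeight_eq hx']
  have hfin := NumberField.absNorm_mul_finprod_finitePlace_eq_one hx
  have hn : ((Ideal.absNorm (Ideal.span (Set.range x)) : ℕ) : ℝ) ≠ 0 := by
    intro h
    rw [h, zero_mul] at hfin
    exact zero_ne_one hfin
  have hfin' : ∏ᶠ v : FinitePlace K, ⨆ i, v (x i : K) =
      ((Ideal.absNorm (Ideal.span (Set.range x)) : ℕ) : ℝ)⁻¹ :=
    eq_inv_of_mul_eq_one_right hfin
  rw [hfin', prod_infinitePlace_iSup_eq]
  unfold AbsSystem.locMul
  rw [Finset.prod_mul_distrib]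
  congr 1
  · exact (prod_embeddings_comp S.inf (fun φ : K →+* ℂ => ⨆ i, ‖φ (x i : K)‖)).symm
  · exact (prod_embeddings_finprod_iSup_eq S.fin S.nonarch S.fin_p x hx).symm

/-- Product formula for nonzero integers of `K` in embedding form. -/
theorem prod_locMul_singleton_int {b : 𝓞 K} (hb : b ≠ 0) :
    ∏ τ : K →+* Ω, (‖S.inf (τ (b : K))‖ * ∏ᶠ p : Nat.Primes, S.fin p (τ (b : K))) = 1 := by
  have h := mulHeight_eq_prod_locMul_int S (fun _ : Unit => b)
    (by intro h; exact hb (congrFun h ()))
  rw [Height.mulHeight_eq_one_of_subsingleton] at h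
  rw [h]
  refine Finset.prod_congr rfl fun τ _ => ?_
  unfold AbsSystem.locMul AbsSystem.locInf AbsSystem.locFin
  simp only [ciSup_unique]

/-- Clearing denominators of a finite tuple. -/
theorem exists_integral_multiple (y : ι → K) (hy : y ≠ 0) :
    ∃ b : 𝓞 K, b ≠ 0 ∧ ∃ a : ι → 𝓞 K, a ≠ 0 ∧ ∀ i, (a i : K) = (b : K) * y i := by
  obtain ⟨b, hb⟩ := IsLocalization.exist_integer_multiples_of_finite (nonZeroDivisors (𝓞 K)) y
  have hb0 : (b : 𝓞 K) ≠ 0 := nonZeroDivisors.coe_ne_zero b
  choose a ha using hb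
  refine ⟨b, hb0, a, ?_, ?_⟩
  · obtain ⟨i₀, hi₀⟩ := Function.ne_iff.mp hy
    intro h
    have h1 := ha i₀
    rw [h] at h1
    simp only [Pi.zero_apply, map_zero] at h1
    rw [Algebra.smul_def] at h1
    rcases mul_eq_zero.mp h1.symm with h2 | h2
    · apply hb0
      have h3 : (((b : 𝓞 K) : 𝓞 K) : K) = 0 := h2
      exact_mod_cast h3
    · exact hi₀ h2
  · intro i
    have h1 := ha i
    rw [Algebra.smul_def] at h1
    exact h1

/-- For a tuple `y ≠ 0` over `K` and an embedding `τ`, the `p`-adic local factor of `τ ∘ y` is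
`1` for almost all primes `p`. -/
theorem hasFiniteMulSupport_locFin (y : ι → K) (hy : y ≠ 0) (τ : K →+* Ω) :
    Function.HasFiniteMulSupport (fun p : Nat.Primes => S.locFin p (fun i => τ (y i))) := by
  obtain ⟨b, hb0, a, ha0, hab⟩ := exists_integral_multiple y hy
  have h1 := hasFiniteMulSupport_iSup_abv S.fin S.nonarch S.fin_p a ha0 τ
  have h2 := hasFiniteMulSupport_abv_embedding S.fin S.nonarch S.fin_p hb0 τ
  have hτb : τ (b : K) ≠ 0 := by
    rw [Ne, map_eq_zero]
    exact_mod_cast hb0
  refine (h1.union h2).subset ?_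
  intro p hp
  simp only [Function.mem_mulSupport, ne_eq, Set.mem_union] at hp ⊢
  by_contra hcon
  rw [not_or, not_not, not_not] at hcon
  apply hp
  have h3 : (⨆ i, S.fin p (τ (a i : K))) = S.fin p (τ (b : K)) * S.locFin p (fun i => τ (y i)) := by
    rw [← AbsSystem.locFin_smul]
    unfold AbsSystem.locFin
    congr 1
    funext i
    rw [hab i, map_mul]
  rw [hcon.1, hcon.2, one_mul] at h3
  exact h3.symm

/-- **Mathlib's height on a number field as a product of local terms over all embeddings into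
`Ω`.** -/
theorem mulHeight_eq_prod_locMul (y : ι → K) (hy : y ≠ 0) :
    Height.mulHeight y = ∏ τ : K →+* Ω, S.locMul (fun i => τ (y i)) := by
  obtain ⟨b, hb0, a, ha0, hab⟩ := exists_integral_multiple y hy
  have hbK : (b : K) ≠ 0 := by exact_mod_cast hb0
  have h1 : Height.mulHeight y = Height.mulHeight (fun i => (a i : K)) := by
    rw [← Height.mulHeight_smul_eq_mulHeight y hbK]
    congr 1
    funext i
    rw [hab i]
    rfl
  rw [h1, mulHeight_eq_prod_locMul_int S a ha0]
  have h2 : ∀ τ : K →+* Ω, S.locMul (fun i => τ (a i : K)) =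
      (‖S.inf (τ (b : K))‖ * ∏ᶠ p : Nat.Primes, S.fin p (τ (b : K))) *
        S.locMul (fun i => τ (y i)) := by
    intro τ
    have h3 : (fun i => τ (a i : K)) = fun i => τ (b : K) * τ (y i) := by
      funext i
      rw [hab i, map_mul]
    rw [h3]
    unfold AbsSystem.locMul
    rw [AbsSystem.locInf_smul]
    have h4 : (fun p : Nat.Primes => S.locFin p (fun i => τ (b : K) * τ (y i))) =
        fun p => S.fin p (τ (b : K)) * S.locFin p (fun i => τ (y i)) := by
      funext p
      rw [AbsSystem.locFin_smul]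
    rw [h4, finprod_mul_distrib
      (hasFiniteMulSupport_abv_embedding S.fin S.nonarch S.fin_p hb0 τ)
      (hasFiniteMulSupport_locFin S y hy τ)]
    ring
  rw [Finset.prod_congr rfl (fun τ _ => h2 τ), Finset.prod_mul_distrib,
    prod_locMul_singleton_int S hb0, one_mul]

/-- Product formula in embedding form: for `c ≠ 0` in `K`. -/
theorem prod_locMul_singleton {c : K} (hc : c ≠ 0) :
    ∏ τ : K →+* Ω, (‖S.inf (τ c)‖ * ∏ᶠ p : Nat.Primes, S.fin p (τ c)) = 1 := by
  have h := mulHeight_eq_prod_locMul S (fun _ : Unit => c)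
    (by intro h; exact hc (congrFun h ()))
  rw [Height.mulHeight_eq_one_of_subsingleton] at h
  rw [h]
  refine Finset.prod_congr rfl fun τ _ => ?_
  unfold AbsSystem.locMul AbsSystem.locInf AbsSystem.locFin
  simp only [ciSup_unique]

omit [CharZero Ω] [IsAlgClosed Ω] in
theorem AbsSystem.locInf_pos (x : ι → Ω) (hx : x ≠ 0) : 0 < S.locInf x := by
  obtain ⟨i₀, hi₀⟩ := Function.ne_iff.mp hx
  have hbdd : BddAbove (Set.range fun i => ‖S.inf (x i)‖) := Set.finite_range _ |>.bddAbove
  have h1 : 0 < ‖S.inf (x i₀)‖ := by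
    rw [norm_pos_iff, Ne, map_eq_zero]
    exact hi₀
  exact lt_of_lt_of_le h1 (le_ciSup hbdd i₀)

omit [CharZero Ω] [IsAlgClosed Ω] in
theorem AbsSystem.locFin_pos (p : Nat.Primes) (x : ι → Ω) (hx : x ≠ 0) : 0 < S.locFin p x := by
  obtain ⟨i₀, hi₀⟩ := Function.ne_iff.mp hx
  have hbdd : BddAbove (Set.range fun i => S.fin p (x i)) := Set.finite_range _ |>.bddAbove
  have h1 : 0 < S.fin p (x i₀) := (S.fin p).pos hi₀
  exact lt_of_lt_of_le h1 (le_ciSup hbdd i₀)

omit [CharZero Ω] [IsAlgClosed Ω] in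
theorem AbsSystem.finprod_locFin_pos (x : ι → Ω) (hx : x ≠ 0) :
    0 < ∏ᶠ p : Nat.Primes, S.locFin p x :=
  finprod_induction (fun r : ℝ => 0 < r) one_pos (fun _ _ ha hb => mul_pos ha hb)
    (fun p => S.locFin_pos p x hx)

omit [CharZero Ω] [IsAlgClosed Ω] in
theorem AbsSystem.locMul_pos (x : ι → Ω) (hx : x ≠ 0) : 0 < S.locMul x :=
  mul_pos (S.locInf_pos x hx) (S.finprod_locFin_pos x hx)

/-- the sum of all logarithmic local factors of a tuple -/
def AbsSystem.locLog {ι : Type*} (S : AbsSystem Ω) (x : ι → Ω) : ℝ :=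
  Real.log (S.locInf x) + ∑ᶠ p : Nat.Primes, Real.log (S.locFin p x)

omit [NumberField K] [CharZero Ω] [IsAlgClosed Ω] [Finite ι] in
theorem comp_ne_zero (τ : K →+* Ω) {y : ι → K} (hy : y ≠ 0) : (fun i => τ (y i)) ≠ 0 := by
  obtain ⟨i₀, hi₀⟩ := Function.ne_iff.mp hy
  intro h
  have := congrFun h i₀
  simp only [Pi.zero_apply, map_eq_zero] at this
  exact hi₀ this

omit [CharZero Ω] [IsAlgClosed Ω] in
theorem AbsSystem.log_locMul_eq (x : ι → Ω) (hx : x ≠ 0)
    (hfs : Function.HasFiniteMulSupport (fun p : Nat.Primes => S.locFin p x)) :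
    Real.log (S.locMul x) = S.locLog x := by
  unfold AbsSystem.locMul AbsSystem.locLog
  rw [Real.log_mul (S.locInf_pos x hx).ne' (S.finprod_locFin_pos x hx).ne']
  congr 1
  have hfs' : (Function.mulSupport (fun p : Nat.Primes => S.locFin p x)).Finite := hfs
  have hsub : Function.mulSupport (fun p : Nat.Primes => S.locFin p x) ⊆
      ((Set.Finite.toFinset hfs' : Finset Nat.Primes) : Set Nat.Primes) := by
    intro p hp
    rw [Set.Finite.coe_toFinset]
    exact hp
  have hsub' : Function.support (fun p : Nat.Primes => Real.log (S.locFin p x)) ⊆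
      ((Set.Finite.toFinset hfs' : Finset Nat.Primes) : Set Nat.Primes) := by
    intro p hp
    rw [Set.Finite.coe_toFinset]
    simp only [Function.mem_support, ne_eq] at hp
    simp only [Function.mem_mulSupport, ne_eq]
    intro h1
    apply hp
    rw [h1, Real.log_one]
  rw [finprod_eq_prod_of_mulSupport_subset _ hsub, finsum_eq_sum_of_support_subset _ hsub',
    Real.log_prod]
  intro p _
  exact (S.locFin_pos p x hx).ne'

/-- Logarithmic version of `mulHeight_eq_prod_locMul`. -/
theorem logHeight_eq_sum_log_locMul (y : ι → K) (hy : y ≠ 0) :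
    Height.logHeight y = ∑ τ : K →+* Ω, Real.log (S.locMul (fun i => τ (y i))) := by
  rw [Height.logHeight_eq_log_mulHeight, mulHeight_eq_prod_locMul S y hy, Real.log_prod]
  intro τ _
  exact (S.locMul_pos _ (comp_ne_zero τ hy)).ne'

/-- **Mathlib's logarithmic height as a sum of logarithmic local terms** over all embeddings
`τ : K →+* Ω` and all places of `ℚ`. -/
theorem logHeight_eq_sum_locLog (y : ι → K) (hy : y ≠ 0) :
    Height.logHeight y = ∑ τ : K →+* Ω, S.locLog (fun i => τ (y i)) := by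
  rw [logHeight_eq_sum_log_locMul S y hy]
  refine Finset.sum_congr rfl fun τ _ => ?_
  exact S.log_locMul_eq _ (comp_ne_zero τ hy) (hasFiniteMulSupport_locFin S y hy τ)

end Main

end Fermat.Agent.S17.H830
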