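import Mathlib
import Fermat.Agent.S17.H830.AbsGlobal

/-!
# S17 / tower H, piece ABS (helper830), part 4: a system of absolute values on `ℚ̄`

`absSystemQbar : AbsSystem (AlgebraicClosure ℚ)`: an embedding `ℚ̄ → ℂ` and, for every prime `p`,
the absolute value induced by an embedding `ℚ̄ → PadicAlgCl p` (Mathlib-only).

Specialisation of the height formula: for a number field `K` and `y : ι → K`, `y ≠ 0`,

  `Height.logHeight y = ∑ τ : K →+* ℚ̄, absSystemQbar.locLog (τ ∘ y)`.
-/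

set_option autoImplicit false

noncomputable section

namespace Fermat.Agent.S17.H830

open NumberField

/-- the chosen embedding `ℚ̄ → PadicAlgCl p` -/
def qbarToPadic (p : ℕ) [Fact p.Prime] : AlgebraicClosure ℚ →ₐ[ℚ] PadicAlgCl p :=
  haveI : Algebra.IsAlgebraic ℚ (AlgebraicClosure ℚ) := AlgebraicClosure.isAlgebraic ℚ
  IsAlgClosed.lift

/-- the chosen embedding `ℚ̄ → ℂ` -/
def qbarToComplex : AlgebraicClosure ℚ →ₐ[ℚ] ℂ :=
  haveI : Algebra.IsAlgebraic ℚ (AlgebraicClosure ℚ) := AlgebraicClosure.isAlgebraic ℚ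
  IsAlgClosed.lift

/-- the `p`-adic absolute value on `ℚ̄` -/
def qbarAbv (p : ℕ) [Fact p.Prime] : AbsoluteValue (AlgebraicClosure ℚ) ℝ :=
  (NormedField.toAbsoluteValue (PadicAlgCl p)).comp
    (f := (qbarToPadic p).toRingHom) (RingHom.injective _)

theorem qbarAbv_apply (p : ℕ) [Fact p.Prime] (x : AlgebraicClosure ℚ) :
    qbarAbv p x = ‖qbarToPadic p x‖ := rfl

theorem qbarAbv_isNonarchimedean (p : ℕ) [Fact p.Prime] : IsNonarchimedean (qbarAbv p) := by
  intro x y
  rw [qbarAbv_apply, qbarAbv_apply, qbarAbv_apply, map_add]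
  exact PadicAlgCl.isNonarchimedean p _ _

theorem qbarAbv_p (p : ℕ) [Fact p.Prime] :
    qbarAbv p ((p : ℕ) : AlgebraicClosure ℚ) = ((p : ℕ) : ℝ)⁻¹ := by
  rw [qbarAbv_apply, map_natCast]
  have h1 : ((p : ℕ) : PadicAlgCl p) = algebraMap ℚ_[p] (PadicAlgCl p) ((p : ℕ) : ℚ_[p]) := by
    rw [map_natCast]
  rw [h1]
  have h2 := PadicAlgCl.norm_extends p ((p : ℕ) : ℚ_[p])
  rw [h2, Padic.norm_p]

/-- A system of absolute values on `ℚ̄`. -/
def absSystemQbar : AbsSystem (AlgebraicClosure ℚ) where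
  inf := qbarToComplex.toRingHom
  fin p := haveI : Fact (p : ℕ).Prime := ⟨p.2⟩; qbarAbv (p : ℕ)
  nonarch p := by
    have : Fact (p : ℕ).Prime := ⟨p.2⟩
    exact qbarAbv_isNonarchimedean (p : ℕ)
  fin_p p := by
    have : Fact (p : ℕ).Prime := ⟨p.2⟩
    exact qbarAbv_p (p : ℕ)

variable {K : Type*} [Field K] [NumberField K] {ι : Type*} [Finite ι]

/-- Mathlib's logarithmic height on a number field `K` is the sum over all embeddings
`τ : K →+* ℚ̄` and all places of `ℚ` of the logarithmic local factors of `τ ∘ y`. -/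
theorem logHeight_eq_sum_locLog_qbar (y : ι → K) (hy : y ≠ 0) :
    Height.logHeight y =
      ∑ τ : K →+* AlgebraicClosure ℚ, absSystemQbar.locLog (fun i => τ (y i)) :=
  logHeight_eq_sum_locLog absSystemQbar y hy

end Fermat.Agent.S17.H830
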