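import Fermat.Agent.S17.H830.NSVal
import Fermat.Agent.S29.H32.AutOrbit

/-!
# S17 / G-DIV, piece NS (helper830), part 2: rationality of places

For the function field `F_L = FL N L` of `GDiv/Defs.lean`:

* `galois_smul_bcQ`, `HasValue.galois_smul`, `hasValue_bcQ_smul` : the coefficientwise Galois action
  and values;
* `hasValue_tval`, `tval_eq` : the `t`-value;
* `exists_aut_add` : if `K₁` is algebraically closed in `L` and `c ∉ K₁`, some automorphism of `L`
  fixing `K₁` maps `c` to `c + n`;
* **ALGVAL** `isRationalOver_of_tval_mem` : if `K₁` is algebraically closed in `L` and contains the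
  `t`-value of `Q`, then `Q` is rational over `K₁` (all finite values at `Q` of functions with
  rational `q`-expansion lie in `K₁`).  Proof by automorphisms: otherwise `t - t(Q)` (or `t`) would
  have infinitely many zeros (poles).
-/

set_option autoImplicit false

noncomputable section

open AlgebraicCurve ModularCurve

namespace Fermat.Agent.S17.H830

open Fermat.Agent.Lib.RR Fermat.Agent.S17.GDiv Fermat.Agent.S17.H680

section Modular

variable {N : ℕ} [NeZero N] {L : Type} [Field L] [Algebra ℚ L]

omit [NeZero N] in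
theorem hasValue_iff {P : Place L (FL N L)} {f : FL N L} {c : L} :
    HasValue P f c ↔ HasVal P f c := Iff.rfl

omit [NeZero N] in
/-- Functions with rational `q`-expansion are fixed by the Galois action. -/
theorem galois_smul_bcQ (σ : L ≃ₐ[ℚ] L) (u : modularFunctionFieldFull N) :
    arithmeticGalois (modularFunctionFieldFull N) σ • bcQ N L u = bcQ N L u := by
  apply Subtype.ext
  rw [coe_arithmeticGalois_smul, coe_bcQ, coeffMap_coeffEmb]

omit [NeZero N] in
theorem galois_smul_algebraMap (σ : L ≃ₐ[ℚ] L) (c : L) :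
    arithmeticGalois (modularFunctionFieldFull N) σ • algebraMap L (FL N L) c
      = algebraMap L (FL N L) (σ c) :=
  SemilinearAut.smul_algebraMap _ c

omit [NeZero N] in
theorem HasValue.galois_smul (σ : L ≃ₐ[ℚ] L) {P : Place L (FL N L)} {f : FL N L} {c : L}
    (h : HasValue P f c) :
    HasValue (arithmeticGalois (modularFunctionFieldFull N) σ • P)
      (arithmeticGalois (modularFunctionFieldFull N) σ • f) (σ c) :=
  HasVal.smul (arithmeticGalois (modularFunctionFieldFull N) σ) h

omit [NeZero N] in
theorem hasValue_bcQ_smul (σ : L ≃ₐ[ℚ] L) {P : Place L (FL N L)}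
    {u : modularFunctionFieldFull N} {c : L} (h : HasValue P (bcQ N L u) c) :
    HasValue (arithmeticGalois (modularFunctionFieldFull N) σ • P) (bcQ N L u) (σ c) := by
  have := HasValue.galois_smul σ h
  rwa [galois_smul_bcQ] at this

theorem galois_smul_tL (σ : L ≃ₐ[ℚ] L) :
    arithmeticGalois (modularFunctionFieldFull N) σ • tL N L = tL N L :=
  galois_smul_bcQ σ _

theorem hasValue_tL_smul (σ : L ≃ₐ[ℚ] L) {P : Place L (FL N L)} {c : L}
    (h : HasValue P (tL N L) c) :
    HasValue (arithmeticGalois (modularFunctionFieldFull N) σ • P) (tL N L) (σ c) :=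
  hasValue_bcQ_smul σ h

/-! ### The `t`-value -/

theorem hasValue_tval {P : Place L (FL N L)} (h : ∃ c : L, HasValue P (tL N L) c) :
    HasValue P (tL N L) (tval P) := by
  classical
  unfold tval
  rw [dif_pos h]
  exact h.choose_spec

theorem tval_eq {P : Place L (FL N L)} {c : L} (h : HasValue P (tL N L) c) : tval P = c :=
  HasVal.unique (hasValue_tval ⟨c, h⟩) h

theorem tval_of_not {P : Place L (FL N L)} (h : ¬ ∃ c : L, HasValue P (tL N L) c) :
    tval P = 0 := by
  classical
  unfold tval
  rw [dif_neg h]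

theorem tval_smul (σ : L ≃ₐ[ℚ] L) {P : Place L (FL N L)}
    (h : ∃ c : L, HasValue P (tL N L) c) :
    tval (arithmeticGalois (modularFunctionFieldFull N) σ • P) = σ (tval P) :=
  tval_eq (hasValue_tL_smul σ (hasValue_tval h))

/-- `t` is not a constant. -/
theorem tL_sub_ne_zero (c : L) : tL N L - algebraMap L (FL N L) c ≠ 0 := by
  intro h
  have h1 : (tL N L : LaurentSeries L) = algebraMap L (LaurentSeries L) c := by
    have := congrArg (fun x : FL N L => (x : LaurentSeries L)) (sub_eq_zero.mp h)
    exact this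
  have h2 : (coeffEmb L jq).order < 0 := by
    have h : (coeffEmb L jq).order ≤ -1 :=
      HahnSeries.order_le_of_coeff_ne_zero (by
        rw [coeffEmb_coeff, coeff_jq_neg_one, map_one]; exact one_ne_zero)
    omega
  have h3 : ((tL N L : FL N L) : LaurentSeries L) = coeffEmb L jq := rfl
  rw [h3] at h1
  rw [h1, order_algebraMap_laurent] at h2
  exact lt_irrefl _ h2

theorem tL_ne_zero : tL N L ≠ 0 := by
  have := tL_sub_ne_zero (N := N) (L := L) 0
  rwa [map_zero, sub_zero] at this

/-! ### Automorphisms -/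

/-- If `K₁` is algebraically closed in the algebraically closed field `L` and `c ∉ K₁`, then
some automorphism of `L` fixing `K₁` maps `c` to `c + n`. -/
theorem exists_aut_add [IsAlgClosed L] (K₁ : Subfield L) (hK₁ : AlgClosedIn K₁) {c : L}
    (hc : c ∉ K₁) (n : ℕ) :
    ∃ σ : L ≃ₐ[ℚ] L, (∀ a ∈ K₁, σ a = a) ∧ σ c = c + n := by
  have htr : Transcendental K₁ c := fun halg => hc (hK₁ c halg)
  obtain ⟨σ, hσ⟩ := Fermat.Agent.S29.H32.exists_algEquiv_apply_eq_add (k := K₁) c htr (n : K₁)
  refine ⟨AlgEquiv.ofRingEquiv (f := σ.toRingEquiv) (fun r => ?_), fun a ha => ?_, ?_⟩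
  · rw [eq_ratCast (algebraMap ℚ L) r]
    exact map_ratCast σ r
  · exact σ.commutes ⟨a, ha⟩
  · show σ c = c + n
    rw [hσ]
    simp

end Modular

section Rational

variable {N : ℕ} [NeZero N] {L : Type} [Field L] [Algebra ℚ L] [IsAlgClosed L]
  [FF1 L (FL N L)]

/-- **ALGVAL**.  If `K₁` is algebraically closed in `L` and contains the `t`-value of `Q`, then
the place `Q` is rational over `K₁`. -/
theorem isRationalOver_of_tval_mem (K₁ : Subfield L) (hK₁ : AlgClosedIn K₁)
    (Q : Place L (FL N L)) (hQ : tval Q ∈ K₁) : IsRationalOver K₁ Q := by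
  intro u c hc
  by_contra hcK
  have : CharZero L := algebraRat.charZero L
  -- a function `f ≠ 0`, fixed by `Aut(L/K₁)`, with `ord_Q f ≠ 0`
  obtain ⟨f, hf0, hfix, hord⟩ : ∃ f : FL N L, f ≠ 0 ∧
      (∀ σ : L ≃ₐ[ℚ] L, (∀ a ∈ K₁, σ a = a) →
        arithmeticGalois (modularFunctionFieldFull N) σ • f = f) ∧ Q.ord f ≠ 0 := by
    by_cases ht : ∃ c : L, HasValue Q (tL N L) c
    · refine ⟨tL N L - algebraMap L (FL N L) (tval Q), tL_sub_ne_zero _, fun σ hσ => ?_, ?_⟩
      · rw [smul_sub, galois_smul_tL, galois_smul_algebraMap, hσ _ hQ]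
      · have h := hasValue_tval ht
        rcases h with h | h
        · exact absurd h (tL_sub_ne_zero _)
        · exact h.ne'
    · refine ⟨tL N L, tL_ne_zero, fun σ _ => galois_smul_tL σ, ?_⟩
      intro h0
      exact ht (exists_hasVal Q (deg_eq_one Q) h0.ge)
  -- the automorphisms
  choose σ hσ1 hσ2 using fun n : ℕ => exists_aut_add K₁ hK₁ hcK n
  let Pn : ℕ → Place L (FL N L) := fun n =>
    arithmeticGalois (modularFunctionFieldFull N) (σ n) • Q
  have hval : ∀ n, HasValue (Pn n) (bcQ N L u) (c + n) := by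
    intro n
    have := hasValue_bcQ_smul (σ n) hc
    rwa [hσ2 n] at this
  have hinj : Function.Injective Pn := by
    intro n m hnm
    have h1 := hval n
    rw [hnm] at h1
    have h2 : c + (n : L) = c + (m : L) := HasVal.unique h1 (hval m)
    exact_mod_cast add_left_cancel h2
  have hordn : ∀ n, (Pn n).ord f ≠ 0 := by
    intro n
    have h := SemilinearAut.ord_smul (arithmeticGalois (modularFunctionFieldFull N) (σ n)) Q f
    rw [hfix (σ n) (hσ1 n)] at h
    show (arithmeticGalois (modularFunctionFieldFull N) (σ n) • Q).ord f ≠ 0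
    rw [h]
    exact hord
  have hfin := finite_setOf_ord_ne_zero (K := L) hf0
  exact Set.infinite_range_of_injective hinj (hfin.subset (by
    rintro _ ⟨n, rfl⟩
    exact hordn n))

end Rational

end Fermat.Agent.S17.H830
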