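import Fermat.Agent.S17.GDiv.Defs

/-!
# S17 / G-DIV, piece NS (helper830), part 1: values of functions at places

General API (`K`, `F` arbitrary, places of the Prelude):

* `HasVal P f c` : `f` has the finite value `c` at `P` (`f - c = 0 ∨ 0 < ord_P (f - c)`), the
  general form of `GDiv.HasValue`;
* `hasVal_iff_residue`, uniqueness, compatibility with `+`, `*`, `⁻¹`, constants;
* `HasVal.smul` : semilinear automorphisms transport values;
* `finite_setOf_ord_ne_zero` : a nonzero function has finitely many zeros and poles.
-/

set_option autoImplicit false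

noncomputable section

open AlgebraicCurve

namespace Fermat.Agent.S17.H830

open Fermat.Agent.Lib.RR

section General

variable {K F : Type*} [Field K] [Field F] [Algebra K F]

/-- `f` has the finite value `c` at `P`. -/
def HasVal (P : Place K F) (f : F) (c : K) : Prop :=
  f - algebraMap K F c = 0 ∨ 0 < P.ord (f - algebraMap K F c)

theorem HasVal.mem {P : Place K F} {f : F} {c : K} (h : HasVal P f c) :
    f ∈ P.toValuationSubring := by
  have h1 : f - algebraMap K F c ∈ P.toValuationSubring := by
    rcases h with h | h
    · rw [h]; exact zero_mem _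
    · exact mem_of_ord_nonneg P h.le
  have h2 := add_mem h1 (P.algebraMap_mem' c)
  rwa [sub_add_cancel] at h2

theorem algebraMap_residue (P : Place K F) (c : K) :
    algebraMap K P.ResidueField c
      = IsLocalRing.residue P.toValuationSubring (algebraMap K P.toValuationSubring c) := by
  rw [IsScalarTower.algebraMap_apply K P.toValuationSubring P.ResidueField]
  rfl

theorem hasVal_iff_residue (P : Place K F) (f : F) (c : K) :
    HasVal P f c ↔ ∃ hf : f ∈ P.toValuationSubring,
      IsLocalRing.residue P.toValuationSubring ⟨f, hf⟩ = algebraMap K P.ResidueField c := by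
  constructor
  · intro h
    refine ⟨h.mem, ?_⟩
    rw [algebraMap_residue, ← sub_eq_zero, ← map_sub, IsLocalRing.residue_eq_zero_iff,
      mem_maximalIdeal_iff]
    exact h
  · rintro ⟨hf, h⟩
    rw [algebraMap_residue, ← sub_eq_zero, ← map_sub, IsLocalRing.residue_eq_zero_iff,
      mem_maximalIdeal_iff] at h
    exact h

theorem HasVal.unique {P : Place K F} {f : F} {c c' : K} (h : HasVal P f c)
    (h' : HasVal P f c') : c = c' := by
  obtain ⟨hf, h1⟩ := (hasVal_iff_residue P f c).mp h
  obtain ⟨_, h2⟩ := (hasVal_iff_residue P f c').mp h'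
  exact (algebraMap K P.ResidueField).injective (h1.symm.trans h2)

theorem hasVal_algebraMap (P : Place K F) (c : K) : HasVal P (algebraMap K F c) c :=
  Or.inl (sub_self _)

theorem HasVal.add {P : Place K F} {f g : F} {c d : K} (hf : HasVal P f c)
    (hg : HasVal P g d) : HasVal P (f + g) (c + d) := by
  obtain ⟨hf', h1⟩ := (hasVal_iff_residue P f c).mp hf
  obtain ⟨hg', h2⟩ := (hasVal_iff_residue P g d).mp hg
  refine (hasVal_iff_residue P _ _).mpr ⟨add_mem hf' hg', ?_⟩
  have : (⟨f + g, add_mem hf' hg'⟩ : P.toValuationSubring) = ⟨f, hf'⟩ + ⟨g, hg'⟩ := rfl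
  rw [this, map_add, h1, h2, map_add]

theorem HasVal.mul {P : Place K F} {f g : F} {c d : K} (hf : HasVal P f c)
    (hg : HasVal P g d) : HasVal P (f * g) (c * d) := by
  obtain ⟨hf', h1⟩ := (hasVal_iff_residue P f c).mp hf
  obtain ⟨hg', h2⟩ := (hasVal_iff_residue P g d).mp hg
  refine (hasVal_iff_residue P _ _).mpr ⟨mul_mem hf' hg', ?_⟩
  have : (⟨f * g, mul_mem hf' hg'⟩ : P.toValuationSubring) = ⟨f, hf'⟩ * ⟨g, hg'⟩ := rfl
  rw [this, map_mul, h1, h2, map_mul]

theorem HasVal.neg {P : Place K F} {f : F} {c : K} (hf : HasVal P f c) :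
    HasVal P (-f) (-c) := by
  have h := (hasVal_algebraMap P (-1 : K)).mul hf
  simpa using h

theorem HasVal.sub {P : Place K F} {f g : F} {c d : K} (hf : HasVal P f c)
    (hg : HasVal P g d) : HasVal P (f - g) (c - d) := by
  rw [sub_eq_add_neg, sub_eq_add_neg]
  exact hf.add hg.neg

/-- A function with a finite value at `P` which vanishes at `P` has value `0`. -/
theorem hasVal_zero_iff (P : Place K F) (f : F) : HasVal P f 0 ↔ (f = 0 ∨ 0 < P.ord f) := by
  unfold HasVal
  rw [map_zero, sub_zero]

theorem HasVal.ord_nonneg {P : Place K F} {f : F} {c : K} (h : HasVal P f c) :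
    0 ≤ P.ord f :=
  ord_nonneg_of_mem P h.mem

/-- At a place of degree one, every function without pole has a value. -/
theorem exists_hasVal (P : Place K F) (hP : P.deg = 1) {f : F} (hf : 0 ≤ P.ord f) :
    ∃ c : K, HasVal P f c :=
  exists_const_sub P hP hf

/-- Semilinear automorphisms transport values. -/
theorem HasVal.smul (g : SemilinearAut K F) {P : Place K F} {f : F} {c : K}
    (h : HasVal P f c) : HasVal (g • P) (g • f) (SemilinearAut.baseAut g c) := by
  have key : g • (f - algebraMap K F c)
      = g • f - algebraMap K F (SemilinearAut.baseAut g c) := by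
    rw [smul_sub, SemilinearAut.smul_algebraMap]
  unfold HasVal
  rw [← key]
  rcases h with h | h
  · left
    rw [h, smul_zero]
  · right
    rw [SemilinearAut.ord_smul]
    exact h

/-- A nonzero function has finitely many zeros and poles. -/
theorem finite_setOf_ord_ne_zero [HasPrincipalDivisors K F] {f : F} (hf : f ≠ 0) :
    {v : Place K F | v.ord f ≠ 0}.Finite := by
  classical
  obtain ⟨D, hD, -⟩ := HasPrincipalDivisors.exists_divisor (K := K) f hf
  refine D.support.finite_toSet.subset ?_
  intro v hv
  rw [Finset.mem_coe, Finsupp.mem_support_iff, hD]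
  exact hv

end General

end Fermat.Agent.S17.H830
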